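import Fermat.Agent.IgusaX0.Special

/-!
# Integrality of the special fibre

Given `DegreeData`, the special fibre of the Igusa model of `X₀(N)` is integral
(`isIntegral_igusa`).
-/

set_option autoImplicit false

noncomputable section

namespace Fermat.Agent.IgusaX0

open AlgebraicGeometry CategoryTheory CategoryTheory.Limits ModularCurve ModularCurve.IgusaScheme
open scoped TensorProduct

variable {N : ℕ} [NeZero N] {ℓ : ℕ} [Fact ℓ.Prime]

/-- Two integral open subschemes which cover and meet give an integral scheme. -/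
theorem isIntegral_of_union {X : Scheme} (U V : Scheme) (i : U ⟶ X) (j : V ⟶ X)
    [IsOpenImmersion i] [IsOpenImmersion j] [IsIntegral U] [IsIntegral V]
    (hcov : ∀ x, x ∈ Set.range i ∨ x ∈ Set.range j)
    (hmeet : (Set.range i ∩ Set.range j).Nonempty) : IsIntegral X := by
  let 𝒰 : X.OpenCover := Scheme.Cover.mkOfCovers Bool (fun b => Bool.rec V U b)
    (fun b => Bool.rec j i b)
    (fun x => by
      rcases hcov x with ⟨y, hy⟩ | ⟨y, hy⟩
      · exact ⟨true, y, hy⟩
      · exact ⟨false, y, hy⟩)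
    (fun b => by cases b <;> infer_instance)
  have : ∀ b, IsReduced (𝒰.X b) := fun b => by
    cases b
    · exact inferInstanceAs (IsReduced V)
    · exact inferInstanceAs (IsReduced U)
  have := IsReduced.of_openCover X 𝒰
  have hi : IsIrreducible (Set.range i) := by
    rw [← Set.image_univ]
    exact (IrreducibleSpace.isIrreducible_univ _).image _ i.continuous.continuousOn
  have hj : IsIrreducible (Set.range j) := by
    rw [← Set.image_univ]
    exact (IrreducibleSpace.isIrreducible_univ _).image _ j.continuous.continuousOn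
  have hdense : Set.range j ⊆ closure (Set.range i) :=
    (subset_closure_inter_of_isPreirreducible_of_isOpen hj.2 i.isOpenEmbedding.isOpen_range
      (by rwa [Set.inter_comm])).trans (closure_mono Set.inter_subset_right)
  have huniv : closure (Set.range i) = Set.univ :=
    Set.eq_univ_of_forall fun x => (hcov x).elim (fun h => subset_closure h) (fun h => hdense h)
  have : IrreducibleSpace X :=
    (irreducibleSpace_def X).mpr (by simpa [huniv] using hi.closure)
  exact isIntegral_of_irreducibleSpace_of_isReduced X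

omit [Fact (Nat.Prime ℓ)] in
theorem isIntegral_chart {A : Type} [CommRing A] [Algebra ↥(GaloisRep.ratLocalizedAt ℓ) A]
    (K : Type) [Field K]
    [Algebra ↥(GaloisRep.ratLocalizedAt ℓ) K] [IsDomain (A ⊗[↥(GaloisRep.ratLocalizedAt ℓ)] K)]
    (f : Spec (.of A) ⟶ Spec (.of ↥(GaloisRep.ratLocalizedAt ℓ)))
        (hf : f =
        Spec.map (CommRingCat.ofHom (algebraMap ↥(GaloisRep.ratLocalizedAt ℓ) A))) :
    IsIntegral (pullback f
        (Spec.map (CommRingCat.ofHom (algebraMap ↥(GaloisRep.ratLocalizedAt ℓ) K)))) := by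
  subst hf
  have : IsIntegral (Spec (.of (A ⊗[↥(GaloisRep.ratLocalizedAt ℓ)] K))) := inferInstance
  have : Nonempty ↥(pullback (Spec.map (CommRingCat.ofHom
      (algebraMap ↥(GaloisRep.ratLocalizedAt ℓ) A)))
      (Spec.map (CommRingCat.ofHom (algebraMap ↥(GaloisRep.ratLocalizedAt ℓ) K)))) :=
    Nonempty.map (pullbackSpecIso ↥(GaloisRep.ratLocalizedAt ℓ) A K).inv inferInstance
  exact isIntegral_of_isOpenImmersion (pullbackSpecIso ↥(GaloisRep.ratLocalizedAt ℓ) A K).hom

/-- The special fibre of the Igusa model is integral. -/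
theorem isIntegral_igusa (D : DegreeData N ℓ) (K : Type) [Field K] [CharP K ℓ]
    [Algebra ↥(GaloisRep.ratLocalizedAt ℓ) K] :
    IsIntegral ↑(pullback (igusaTo N ℓ)
        (Spec.map (CommRingCat.ofHom (algebraMap ↥(GaloisRep.ratLocalizedAt ℓ) K)))) := by
  set φ := Spec.map (CommRingCat.ofHom (algebraMap ↥(GaloisRep.ratLocalizedAt ℓ) K)) with hφ
  have hFin : ((jFull N : modularFunctionFieldFull N) : LaurentSeries ℚ) =
      (jW ℓ : LaurentSeries ℚ) :=
    rfl
  have hInf : (((jFull N)⁻¹ : modularFunctionFieldFull N) : LaurentSeries ℚ) =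
      (jInvW ℓ : LaurentSeries ℚ) := rfl
  have := isDomain_tensor D (Or.inl rfl) K hFin
  have := isDomain_tensor D (Or.inr rfl) K hInf
  have : IsIntegral (pullback (ιFin N ℓ ≫ igusaTo N ℓ) φ) :=
    isIntegral_chart K _ (ιFin_igusaTo N ℓ)
  have : IsIntegral (pullback (ιInf N ℓ ≫ igusaTo N ℓ) φ) :=
    isIntegral_chart K _ (ιInf_igusaTo N ℓ)
  let iF : pullback (ιFin N ℓ ≫ igusaTo N ℓ) φ ⟶ pullback (igusaTo N ℓ) φ :=
    pullback.map _ _ _ _ (ιFin N ℓ) (𝟙 _) (𝟙 _) (by simp) (by simp)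
  let iI : pullback (ιInf N ℓ ≫ igusaTo N ℓ) φ ⟶ pullback (igusaTo N ℓ) φ :=
    pullback.map _ _ _ _ (ιInf N ℓ) (𝟙 _) (𝟙 _) (by simp) (by simp)
  have hrF : Set.range iF =
      pullback.fst (igusaTo N ℓ) φ ⁻¹' Set.range (ιFin N ℓ) := by
    rw [Scheme.Pullback.range_map]; simp
  have hrI : Set.range iI =
      pullback.fst (igusaTo N ℓ) φ ⁻¹' Set.range (ιInf N ℓ) := by
    rw [Scheme.Pullback.range_map]; simp
  -- a `K((q))`-point in the overlap
  have hWFin : ∀ x ∈ chartAlg N ℓ {jFull N}, (x : LaurentSeries ℚ) ∈ gaussRing ℓ :=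
    fun x hx => mem_gaussRing_of_mem_chartAlg hFin hx
  have hWMid : ∀ x ∈ chartAlgMid N ℓ, (x : LaurentSeries ℚ) ∈ gaussRing ℓ := fun x hx => by
    obtain ⟨n, hn⟩ := exists_pow_mul_mem_chartAlg (N := N) (ℓ := ℓ)
      (Set.mem_singleton (jFull N)) (jFull_ne_zero N) (x := x)
      (by rwa [show insert (jFull N)⁻¹ ({jFull N} : Set _) = {jFull N, (jFull N)⁻¹}
        from Set.pair_comm _ _])
    have h := mul_mem (pow_mem (inv_jq_mem ℓ) n) (hWFin _ hn)
    convert h using 1
    push_cast [coe_jFull]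
    rw [← mul_assoc, ← mul_pow, inv_mul_cancel₀ jq_ne_zero, one_pow, one_mul]
  let pM : Spec (.of (LaurentSeries K)) ⟶ XMid N ℓ :=
    Spec.map (CommRingCat.ofHom (chartMap K _ hWMid))
  have hpM : (pM ≫ fFin N ℓ ≫ ιFin N ℓ) ≫ igusaTo N ℓ =
      Spec.map (CommRingCat.ofHom (HahnSeries.C (Γ := ℤ) (R := K))) ≫ φ := by
    rw [Category.assoc, Category.assoc, ιFin_igusaTo, ← Spec.map_comp, ← Spec.map_comp,
      hφ, ← Spec.map_comp]
    congr 1
    rw [← CommRingCat.ofHom_comp, ← CommRingCat.ofHom_comp, ← CommRingCat.ofHom_comp]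
    congr 1
    rw [← chartMap_comp_algebraMap K _ hWMid]
    congr 1
  let p : Spec (.of (LaurentSeries K)) ⟶ pullback (igusaTo N ℓ) φ :=
    pullback.lift (pM ≫ fFin N ℓ ≫ ιFin N ℓ) _ hpM
  obtain ⟨x⟩ : Nonempty ↥(Spec (.of (LaurentSeries K))) := inferInstance
  refine isIntegral_of_union _ _ iF iI (fun y => ?_) ⟨p x, ?_, ?_⟩
  · rw [hrF, hrI]
    exact mem_range_ιFin_or_mem_range_ιInf N ℓ _
  · rw [hrF, Set.mem_preimage, ← Scheme.Hom.comp_apply, pullback.lift_fst]
    exact ⟨(fFin N ℓ) (pM x), rfl⟩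
  · rw [hrI, Set.mem_preimage, ← Scheme.Hom.comp_apply, pullback.lift_fst, glue_condition]
    exact ⟨(fInf N ℓ) (pM x), rfl⟩

end Fermat.Agent.IgusaX0
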