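import Fermat.Agent.IgusaX0.Gauss

/-!
# Integral closures under the Gauss valuation

If the residue field of the Gauss valuation on a finite extension of `ℚ(g)` has full degree, then
an element integral over `ℤ_(ℓ)[g]` with zero residue is `ℓ` times an integral one
(`integral_div_of_res_eq_zero`).
-/

set_option autoImplicit false

noncomputable section

namespace Fermat.Agent.IgusaX0

open ModularCurve Polynomial

variable (ℓ : ℕ) [Fact ℓ.Prime]

set_option quotPrecheck false in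
local notation "Rℓ" => ↥(GaloisRep.ratLocalizedAt ℓ)
local notation "L₀" => LaurentSeries ℚ
set_option quotPrecheck false in
local notation "L₁" => LaurentSeries (ZMod ℓ)

/-- quotients of `ℤ_(ℓ)((q))` in `ℚ((q))` -/
def fracSubfield : Subfield L₀ where
  carrier := {x | ∃ a b : LaurentSeries Rℓ, b ≠ 0 ∧ x * seriesIncl ℓ b = seriesIncl ℓ a}
  one_mem' := ⟨1, 1, one_ne_zero, by simp⟩
  zero_mem' := ⟨0, 1, one_ne_zero, by simp⟩
  mul_mem' := by
    rintro x y ⟨a, b, hb, hx⟩ ⟨c, d, hd, hy⟩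
    refine ⟨a * c, b * d, mul_ne_zero hb hd, ?_⟩
    rw [map_mul, map_mul, ← hx, ← hy]; ring
  add_mem' := by
    rintro x y ⟨a, b, hb, hx⟩ ⟨c, d, hd, hy⟩
    refine ⟨a * d + c * b, b * d, mul_ne_zero hb hd, ?_⟩
    rw [map_add, map_mul, map_mul, map_mul, ← hx, ← hy]; ring
  neg_mem' := by
    rintro x ⟨a, b, hb, hx⟩
    exact ⟨-a, b, hb, by rw [map_neg, ← hx]; ring⟩
  inv_mem' := by
    rintro x ⟨a, b, hb, hx⟩
    rcases eq_or_ne x 0 with rfl | h0
    · exact ⟨0, 1, one_ne_zero, by simp⟩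
    · refine ⟨b, a, ?_, by rw [← hx, ← mul_assoc, inv_mul_cancel₀ h0, one_mul]⟩
      intro ha
      rw [ha, map_zero] at hx
      exact mul_ne_zero h0 ((map_ne_zero_iff _ (seriesIncl_injective ℓ)).mpr hb) hx

omit [Fact (Nat.Prime ℓ)] in
/-- Series with integral coefficients lie in their fraction field. -/
theorem seriesIncl_mem_frac (a : LaurentSeries Rℓ) : seriesIncl ℓ a ∈ fracSubfield ℓ :=
  ⟨a, 1, one_ne_zero, by simp⟩

omit [Fact (Nat.Prime ℓ)] in
/-- Constants lie in the fraction field of the integral series. -/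
theorem algebraMap_mem_frac (c : ℚ) : algebraMap ℚ L₀ c ∈ fracSubfield ℓ := by
  rw [← Rat.num_div_den c, map_div₀, map_intCast, map_natCast]
  exact div_mem (intCast_mem _ _) (natCast_mem _ _)

/-- constants of `ℤ_(ℓ)` in `ℚ((q))` -/
def constHom : Rℓ →+* L₀ := (algebraMap ℚ L₀).comp (GaloisRep.ratLocalizedAt ℓ).subtype

omit [Fact (Nat.Prime ℓ)] in
theorem constHom_eq (r : Rℓ) : constHom ℓ r = seriesIncl ℓ (HahnSeries.single 0 r) := by
  rw [seriesIncl, coeffMap_single]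
  exact algebraMap_laurentSeries_eq_single ℚ (r : ℚ)

theorem constHom_mem (r : Rℓ) : constHom ℓ r ∈ gaussRing ℓ := by
  rw [constHom_eq]; exact seriesIncl_mem ℓ _

theorem res_constHom (r : Rℓ) :
    res ℓ ⟨constHom ℓ r, constHom_mem ℓ r⟩ = algebraMap (ZMod ℓ) L₁ (red ℓ r) := by
  have h := res_seriesIncl ℓ (HahnSeries.single (0 : ℤ) r)
  rw [seriesRed, coeffMap_single, ← algebraMap_laurentSeries_eq_single] at h
  rw [← h]
  congr 2
  exact constHom_eq ℓ r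

theorem res_natCast_ell : res ℓ (ℓ : gaussRing ℓ) = 0 := by
  rw [map_natCast, ← map_natCast (algebraMap (ZMod ℓ) L₁), ZMod.natCast_self, map_zero]

theorem ell_ne_zero : (ℓ : L₀) ≠ 0 := by
  rw [← map_natCast (algebraMap ℚ L₀)]
  simp only [ne_eq, map_eq_zero, Nat.cast_eq_zero]
  exact (Fact.out : ℓ.Prime).ne_zero

variable {ℓ}

theorem zpow_mul_mem {m : ℤ} (hm : 0 ≤ m) {u : L₀} (hu : u ∈ gaussRing ℓ) :
    (ℓ : L₀) ^ m * u ∈ gaussRing ℓ := by
  lift m to ℕ using hm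
  rw [zpow_natCast]
  exact mul_mem (pow_mem (natCast_mem _ _) _) hu

theorem nonneg_of_mem {x : L₀} {m : ℤ} {u : gaussRing ℓ} (hx : x ∈ gaussRing ℓ)
    (hxu : x = (ℓ : L₀) ^ m * u) (hu : res ℓ u ≠ 0) : 0 ≤ m := by
  by_contra hm
  obtain ⟨k, hk⟩ : ∃ k : ℕ, -m = (k + 1 : ℕ) := ⟨(-m - 1).toNat, by omega⟩
  apply hu
  have : u = (ℓ : gaussRing ℓ) ^ (k + 1) * ⟨x, hx⟩ := by
    apply Subtype.ext
    push_cast
    rw [hxu, ← zpow_natCast (ℓ : L₀) (k + 1), ← mul_assoc, ← zpow_add₀ (ell_ne_zero ℓ)]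
    rw [show ((k + 1 : ℕ) : ℤ) + m = 0 by omega, zpow_zero, one_mul]
  rw [this, map_mul, map_pow, res_natCast_ell, zero_pow (Nat.succ_ne_zero _), zero_mul]

theorem exists_unit_mul {x : L₀} (hx : x ∈ fracSubfield ℓ) (hx0 : x ≠ 0) :
    ∃ (m : ℤ) (u : gaussRing ℓ), x = (ℓ : L₀) ^ m * u ∧ res ℓ u ≠ 0 := by
  obtain ⟨a, b, hb, hab⟩ := hx
  have hbI : seriesIncl ℓ b ≠ 0 := (map_ne_zero_iff _ (seriesIncl_injective ℓ)).mpr hb
  have ha : a ≠ 0 := by
    rintro rfl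
    rw [map_zero] at hab
    exact mul_ne_zero hx0 hbI hab
  obtain ⟨m, a', ha', ha'0⟩ := exists_series_normalise ℓ ha
  obtain ⟨k, b', hb', hb'0⟩ := exists_series_normalise ℓ hb
  have hu : ((ℓ : L₀) ^ (k - m) * x) * seriesIncl ℓ b' = seriesIncl ℓ a' := by
    rw [zpow_sub₀ (ell_ne_zero ℓ), div_eq_mul_inv]
    calc (ℓ : L₀) ^ k * ((ℓ : L₀) ^ m)⁻¹ * x * seriesIncl ℓ b'
        = ((ℓ : L₀) ^ m)⁻¹ * (x * ((ℓ : L₀) ^ k * seriesIncl ℓ b')) := by ring
      _ = seriesIncl ℓ a' := by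
        rw [← hb', hab, ha', ← mul_assoc, inv_mul_cancel₀ (zpow_ne_zero _ (ell_ne_zero ℓ)), one_mul]
  have hmem : (ℓ : L₀) ^ (k - m) * x ∈ gaussRing ℓ :=
    (mem_gaussRing_iff ℓ).mpr ⟨a', b', hb'0, hu⟩
  have hr := resFun_eq ℓ (x := ⟨_, hmem⟩) hb'0 hu
  refine ⟨m - k, ⟨_, hmem⟩, ?_, fun h0 => div_ne_zero ha'0 hb'0 (hr.symm.trans h0)⟩
  dsimp only
  rw [← mul_assoc, ← zpow_add₀ (ell_ne_zero ℓ), show m - k + (k - m) = 0 by ring, zpow_zero,
    one_mul]

theorem mem_or_inv_mem {x : L₀} (hx : x ∈ fracSubfield ℓ) :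
    x ∈ gaussRing ℓ ∨ x⁻¹ ∈ gaussRing ℓ := by
  rcases eq_or_ne x 0 with rfl | h0
  · exact Or.inl (zero_mem _)
  obtain ⟨m, u, hu, hu0⟩ := exists_unit_mul hx h0
  rcases le_or_gt 0 m with hm | hm
  · exact Or.inl (hu ▸ zpow_mul_mem hm u.2)
  · right
    obtain ⟨a, b, hb, hab⟩ := u.2
    have hr : res ℓ u = seriesRed ℓ a / seriesRed ℓ b := resFun_eq ℓ hb hab
    have ha : seriesRed ℓ a ≠ 0 := fun h => hu0 (by rw [hr, h, zero_div])
    have hune : (u : L₀) ≠ 0 := fun h => h0 (by rw [hu, h, mul_zero])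
    rw [hu, mul_inv, ← zpow_neg]
    exact zpow_mul_mem (by omega)
      ⟨b, a, ha, by rw [← hab, ← mul_assoc, inv_mul_cancel₀ hune, one_mul]⟩

section Chart

open IntermediateField

variable (g : gaussRing ℓ)

/-- evaluation of `ℤ_(ℓ)[X]` at `g` inside the valuation ring -/
def evalW : Rℓ[X] →+* gaussRing ℓ :=
  eval₂RingHom ((constHom ℓ).codRestrict _ (constHom_mem ℓ)) g

/-- evaluation of `ℤ_(ℓ)[X]` at `g` -/
def evalL : Rℓ[X] →+* L₀ := eval₂RingHom (constHom ℓ) (g : L₀)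

theorem coe_evalW (P : Rℓ[X]) : ((evalW g P : gaussRing ℓ) : L₀) = evalL g P := by
  have : (gaussRing ℓ).subtype.comp (evalW g) = evalL g :=
    Polynomial.ringHom_ext (fun r => by simp [evalW, evalL]) (by simp [evalW, evalL])
  exact RingHom.congr_fun this P

theorem evalL_eq_aeval (P : Rℓ[X]) :
    evalL g P = aeval (g : L₀) (P.map (GaloisRep.ratLocalizedAt ℓ).subtype) := by
  rw [aeval_def, eval₂_map]
  rfl

theorem res_evalW (P : Rℓ[X]) : res ℓ (evalW g P) = aeval (res ℓ g) (P.map (red ℓ)) := by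
  have : (res ℓ).comp (evalW g) =
      ((aeval (res ℓ g) : (ZMod ℓ)[X] →ₐ[ZMod ℓ] L₁).toRingHom).comp (mapRingHom (red ℓ)) :=
    Polynomial.ringHom_ext (fun r => by
      simp [evalW]
      exact res_constHom ℓ r) (by simp [evalW])
  exact RingHom.congr_fun this P

variable {g} (hg : Transcendental (ZMod ℓ) (res ℓ g))

include hg

theorem poly_normalise {P : ℚ[X]} (hP : P ≠ 0) :
    ∃ (m : ℤ) (P' : Rℓ[X]), P = C ((ℓ : ℚ) ^ m) * P'.map (GaloisRep.ratLocalizedAt ℓ).subtype ∧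
      aeval (g : L₀) P = (ℓ : L₀) ^ m * evalL g P' ∧ res ℓ (evalW g P') ≠ 0 := by
  obtain ⟨m, r, hr, hr0, i, hi⟩ := exists_normalise ℓ (fun i => P.coeff i)
    (-(∑ i ∈ P.support, |padicValRat ℓ (P.coeff i)|))
    (fun i h => by
      have := Finset.single_le_sum (f := fun i => |padicValRat ℓ (P.coeff i)|)
        (fun _ _ => abs_nonneg _) (mem_support_iff.mpr h)
      linarith [neg_abs_le (padicValRat ℓ (P.coeff i))])
    ⟨P.natDegree, by simpa using hP⟩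
  let P' : Rℓ[X] := ∑ k ∈ P.support, monomial k (r k)
  have hc : ∀ k, P'.coeff k = r k := fun k => by
    simp only [P', finsetSum_coeff, coeff_monomial, Finset.sum_ite_eq']
    split_ifs with h
    · rfl
    · exact (hr0 k (by simpa using h)).symm
  have heq : P = C ((ℓ : ℚ) ^ m) * P'.map (GaloisRep.ratLocalizedAt ℓ).subtype := by
    ext k
    rw [coeff_C_mul, coeff_map, hc]
    exact hr k
  refine ⟨m, P', heq, ?_, ?_⟩
  · rw [evalL_eq_aeval]
    conv_lhs => rw [heq]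
    rw [map_mul, aeval_C, map_zpow₀, map_natCast]
  · rw [res_evalW]
    intro h
    have := (transcendental_iff.mp hg) _ h
    apply hi
    rw [← hc i, ← coeff_map, this, coeff_zero]

theorem transcendental_coe : Transcendental ℚ (g : L₀) := by
  rw [transcendental_iff]
  intro P hP
  by_contra h0
  obtain ⟨m, P', -, h2, h3⟩ := poly_normalise hg h0
  rw [hP, eq_comm, mul_eq_zero, or_iff_right (zpow_ne_zero _ (ell_ne_zero ℓ))] at h2
  apply h3
  rw [show evalW g P' = 0 from Subtype.ext ((coe_evalW g P').trans h2), map_zero]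

theorem coeff_mem_of_aeval_mem {P : ℚ[X]} (hP : aeval (g : L₀) P ∈ gaussRing ℓ) :
    ∃ P' : Rℓ[X], aeval (g : L₀) P = evalL g P' := by
  rcases eq_or_ne P 0 with rfl | h0
  · exact ⟨0, by simp⟩
  obtain ⟨m, P', -, h2, h3⟩ := poly_normalise hg h0
  have hm : 0 ≤ m := nonneg_of_mem hP (u := evalW g P') (by rw [coe_evalW]; exact h2) h3
  lift m to ℕ using hm
  exact ⟨(ℓ : Rℓ[X]) ^ m * P', by rw [h2, map_mul, map_pow, map_natCast, zpow_natCast]⟩

theorem adjoin_le_frac {t : L₀} (ht : t ∈ ℚ⟮(g : L₀)⟯) (ht0 : t ≠ 0) :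
    ∃ (m : ℤ) (u : gaussRing ℓ), t = (ℓ : L₀) ^ m * u ∧ (u : L₀) ∈ ℚ⟮(g : L₀)⟯ ∧
      res ℓ u ≠ 0 ∧ res ℓ u ∈ (ZMod ℓ)⟮res ℓ g⟯ := by
  obtain ⟨P, Q, rfl⟩ := (mem_adjoin_simple_iff ℚ t).mp ht
  have hP : P ≠ 0 := fun h => ht0 (by simp [h])
  have hQ : Q ≠ 0 := fun h => ht0 (by simp [h])
  obtain ⟨m, P', -, hP2, hP3⟩ := poly_normalise hg hP
  obtain ⟨k, Q', -, hQ2, hQ3⟩ := poly_normalise hg hQ
  have hP0 : evalL g P' ≠ 0 := fun h => hP3
    (by rw [show evalW g P' = 0 from Subtype.ext ((coe_evalW g P').trans h), map_zero])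
  obtain ⟨a, b, hb, hab⟩ := (evalW g P').2
  obtain ⟨c, d, hd, hcd⟩ := (evalW g Q').2
  have hc : seriesRed ℓ c ≠ 0 := fun h => hQ3 <| by
    show resFun ℓ _ = 0
    rw [resFun_eq ℓ hd hcd, h, zero_div]
  have hQ0 : evalL g Q' ≠ 0 := fun h => hQ3
    (by rw [show evalW g Q' = 0 from Subtype.ext ((coe_evalW g Q').trans h), map_zero])
  rw [coe_evalW] at hab hcd
  have hu : evalL g P' / evalL g Q' ∈ gaussRing ℓ := by
    refine ⟨a * d, b * c, by rw [map_mul]; exact mul_ne_zero hb hc, ?_⟩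
    rw [map_mul, map_mul, ← hab, ← hcd]
    field_simp
  have hres : res ℓ ⟨_, hu⟩ * res ℓ (evalW g Q') = res ℓ (evalW g P') := by
    rw [← map_mul]
    congr 1
    exact Subtype.ext (by rw [Subring.coe_mul, coe_evalW, coe_evalW, div_mul_cancel₀ _ hQ0])
  have hmem : ∀ R : Rℓ[X], evalL g R ∈ ℚ⟮(g : L₀)⟯ := fun R => by
    rw [evalL_eq_aeval]
    exact algebra_adjoin_le_adjoin ℚ _ (aeval_mem_adjoin_singleton ℚ _)
  refine ⟨m - k, ⟨_, hu⟩, ?_, div_mem (hmem P') (hmem Q'),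
    fun h => hP3 (by rw [← hres, h, zero_mul]), ?_⟩
  · rw [hP2, hQ2, zpow_sub₀ (ell_ne_zero ℓ)]
    field_simp
  · rw [eq_div_of_mul_eq hQ3 hres, res_evalW, res_evalW]
    exact div_mem (algebra_adjoin_le_adjoin _ _ (aeval_mem_adjoin_singleton _ _))
      (algebra_adjoin_le_adjoin _ _ (aeval_mem_adjoin_singleton _ _))

variable {n : ℕ} (ω : Fin n → gaussRing ℓ)
  (hω : LinearIndependent ↥(ZMod ℓ)⟮res ℓ g⟯ (fun i => res ℓ (ω i)))

include hω

theorem exists_combination_normalise (t : Fin n → ↥ℚ⟮(g : L₀)⟯) (ht : ∃ i, t i ≠ 0) :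
    ∃ (m : ℤ) (u : Fin n → gaussRing ℓ), (∀ i, (t i : L₀) = (ℓ : L₀) ^ m * u i) ∧
      res ℓ (∑ i, u i * ω i) ≠ 0 := by
  obtain ⟨i₀, hi₀⟩ := ht
  have h0 : ∀ {i}, t i ≠ 0 → (t i : L₀) ≠ 0 := fun h h' => h (Subtype.ext h')
  choose mf uf huf _ hufn hufK using fun i (hi : t i ≠ 0) => adjoin_le_frac hg (t i).2 (h0 hi)
  classical
  let S : Finset (Fin n) := Finset.univ.filter fun i => t i ≠ 0
  let mt : Fin n → ℤ := fun i => if hi : t i ≠ 0 then mf i hi else 0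
  obtain ⟨i₁, hi₁, hmin⟩ := S.exists_min_image mt ⟨i₀, by simp [S, hi₀]⟩
  replace hi₁ : t i₁ ≠ 0 := by simpa [S] using hi₁
  have hle : ∀ i (hi : t i ≠ 0), mf i₁ hi₁ ≤ mf i hi := fun i hi => by
    simpa [mt, hi, hi₁] using hmin i (by simp [S, hi])
  let u : Fin n → gaussRing ℓ := fun i =>
    if hi : t i ≠ 0 then (ℓ : gaussRing ℓ) ^ (mf i hi - mf i₁ hi₁).toNat * uf i hi else 0
  have hut : ∀ i, (t i : L₀) = (ℓ : L₀) ^ mf i₁ hi₁ * u i := fun i => by
    by_cases hi : t i ≠ 0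
    · simp only [u, dif_pos hi]
      push_cast
      rw [← zpow_natCast (ℓ : L₀), Int.toNat_of_nonneg (by linarith [hle i hi]),
        ← mul_assoc, ← zpow_add₀ (ell_ne_zero ℓ), show mf i₁ hi₁ + (mf i hi - mf i₁ hi₁) = mf i hi
          by ring]
      exact huf i hi
    · simp only [u, dif_neg hi]
      rw [not_not.mp hi]
      simp
  have hK : ∀ i, res ℓ (u i) ∈ (ZMod ℓ)⟮res ℓ g⟯ := fun i => by
    by_cases hi : t i ≠ 0
    · simp only [u, dif_pos hi, map_mul, map_pow]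
      refine mul_mem (pow_mem ?_ _) (hufK i hi)
      rw [res_natCast_ell]
      exact zero_mem _
    · simp only [u, dif_neg hi, map_zero]
      exact zero_mem _
  refine ⟨_, u, hut, fun h => ?_⟩
  rw [map_sum] at h
  simp only [map_mul] at h
  have := Fintype.linearIndependent_iff.mp hω (fun i => ⟨_, hK i⟩)
    (by simpa [IntermediateField.smul_def] using h) i₁
  apply hufn i₁ hi₁
  simpa [u, hi₁] using congrArg Subtype.val this

variable {F₀ : IntermediateField ℚ L₀} (hgF : (g : L₀) ∈ F₀) (hωF : ∀ i, (ω i : L₀) ∈ F₀)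
  (hfrac : ∀ x ∈ F₀, x ∈ fracSubfield ℓ)
  (hdim : ∀ v : Fin (n + 1) → L₀, (∀ i, v i ∈ F₀) → ¬ LinearIndependent ↥ℚ⟮(g : L₀)⟯ v)

include hgF hωF hfrac hdim

omit hgF hfrac in
theorem exists_coords {z : L₀} (hz : z ∈ F₀) :
    ∃ t : Fin n → ↥ℚ⟮(g : L₀)⟯, (∑ i, (t i : L₀) * ω i = z) ∧
      (z ∈ gaussRing ℓ → ∀ i, (t i : L₀) ∈ gaussRing ℓ) := by
  have hind : LinearIndependent ↥ℚ⟮(g : L₀)⟯ (fun i => (ω i : L₀)) := by
    rw [Fintype.linearIndependent_iff]
    intro t ht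
    by_contra hne
    push Not at hne
    obtain ⟨m, u, hu, hu0⟩ := exists_combination_normalise hg ω hω t hne
    apply hu0
    rw [show ∑ i, u i * ω i = 0 from Subtype.ext ?_, map_zero]
    simp only [IntermediateField.smul_def, smul_eq_mul, hu, mul_assoc, ← Finset.mul_sum,
      mul_eq_zero, or_iff_right (zpow_ne_zero _ (ell_ne_zero ℓ))] at ht
    push_cast
    exact ht
  have hspan : z ∈ Submodule.span ↥ℚ⟮(g : L₀)⟯ (Set.range fun i => (ω i : L₀)) := by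
    by_contra h
    refine hdim (Fin.cons z fun i => (ω i : L₀)) (fun i => ?_)
      (linearIndependent_finCons.mpr ⟨hind, h⟩)
    exact Fin.cases (motive := fun i => (Fin.cons z (fun i => (ω i : L₀)) : Fin (n + 1) → L₀) i ∈ F₀)
      (by simpa using hz) (fun j => by simpa using hωF j) i
  obtain ⟨t, ht⟩ := Submodule.mem_span_range_iff_exists_fun _ |>.mp hspan
  have ht' : ∑ i, (t i : L₀) * ω i = z := by
    rw [← ht]; exact Finset.sum_congr rfl fun i _ => rfl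
  refine ⟨t, ht', fun hzW => ?_⟩
  by_cases hne : ∃ i, t i ≠ 0
  · obtain ⟨m, u, hu, hu0⟩ := exists_combination_normalise hg ω hω t hne
    have hm : 0 ≤ m := nonneg_of_mem hzW (u := ∑ i, u i * ω i)
      (by rw [← ht']; push_cast; simp only [hu, mul_assoc, ← Finset.mul_sum]) hu0
    exact fun i => hu i ▸ zpow_mul_mem hm (u i).2
  · push Not at hne
    exact fun i => by rw [hne i]; exact zero_mem _

omit hg hω hgF hωF hdim in
/-- Elements of `F₀` integral over `ℤ_(ℓ)[g]` lie in the Gauss valuation ring. -/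
theorem mem_gaussRing_of_integral {x : L₀} (hx : x ∈ F₀) (hint : (evalL g).IsIntegralElem x) :
    x ∈ gaussRing ℓ := by
  rcases eq_or_ne x 0 with rfl | h0
  · exact zero_mem _
  obtain ⟨m, u, hu, hu0⟩ := exists_unit_mul (hfrac x hx) h0
  rcases le_or_gt 0 m with hm | hm
  · exact hu ▸ zpow_mul_mem hm u.2
  exfalso
  obtain ⟨p, hp, hpx⟩ := hint
  obtain ⟨k, hk⟩ : ∃ k : ℕ, -m = (k + 1 : ℕ) := ⟨(-m - 1).toNat, by omega⟩
  let s : Rℓ[X] := (ℓ : Rℓ[X]) ^ (k + 1)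
  have hs : evalL g s = (ℓ : L₀) ^ (k + 1) := by simp [s]
  have hux : (u : L₀) = evalL g s * x := by
    rw [hs, hu, ← zpow_natCast, ← mul_assoc, ← zpow_add₀ (ell_ne_zero ℓ),
      show ((k + 1 : ℕ) : ℤ) + m = 0 by omega, zpow_zero, one_mul]
  have h1 : eval₂ (evalL g) (u : L₀) (p.scaleRoots s) = 0 := by
    rw [hux, scaleRoots_eval₂_mul, hpx, mul_zero]
  have h2 : eval₂ (evalW g) u (p.scaleRoots s) = 0 := by
    apply (gaussRing ℓ).subtype_injective
    rw [map_zero, hom_eval₂, show (gaussRing ℓ).subtype.comp (evalW g) = evalL g from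
      RingHom.ext (coe_evalW g)]
    exact h1
  have h3 := congrArg (res ℓ) h2
  rw [map_zero, hom_eval₂, ← eval_map, map_scaleRoots _ _ _ (by simp [hp.leadingCoeff]),
    show (res ℓ).comp (evalW g) s = 0 by
      rw [RingHom.comp_apply, map_pow, map_natCast, map_pow, res_natCast_ell,
        zero_pow (Nat.succ_ne_zero _)],
    scaleRoots_zero, (hp.map _).leadingCoeff, one_smul, eval_pow, eval_X] at h3
  exact hu0 (eq_zero_of_pow_eq_zero h3)

/-- The main reduction lemma. -/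
theorem integral_div_of_res_eq_zero {x : L₀} (hxF : x ∈ F₀) (hint : (evalL g).IsIntegralElem x)
    (hxW : x ∈ gaussRing ℓ) (hx0 : res ℓ ⟨x, hxW⟩ = 0) :
    (evalL g).IsIntegralElem (x / ℓ) := by
  have hℓ := ell_ne_zero ℓ
  have hyF : x / ℓ ∈ F₀ := div_mem hxF (IntermediateField.natCast_mem _ _)
  have hyW : x / ℓ ∈ gaussRing ℓ := by
    rcases eq_or_ne x 0 with rfl | h0
    · simp
    obtain ⟨m, u, hu, hu0⟩ := exists_unit_mul (hfrac x hxF) h0
    have hm : m ≠ 0 := by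
      rintro rfl
      apply hu0
      rw [show u = ⟨x, hxW⟩ from Subtype.ext (by simpa using hu.symm)]
      exact hx0
    have hm' : 0 ≤ m := nonneg_of_mem hxW hu hu0
    rw [hu, div_eq_inv_mul, ← mul_assoc, ← zpow_neg_one, ← zpow_add₀ hℓ]
    exact zpow_mul_mem (by omega) u.2
  set y := x / (ℓ : L₀) with hy
  -- the valuation ring of `ℚ(g)`
  let W₀ : ValuationSubring ↥ℚ⟮(g : L₀)⟯ :=
    { (gaussRing ℓ).comap (algebraMap ↥ℚ⟮(g : L₀)⟯ L₀) with
      mem_or_inv_mem' := fun t =>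
        mem_or_inv_mem (hfrac _ (adjoin_simple_le_iff.mpr hgF t.2)) }
  let : Algebra W₀ L₀ := ((algebraMap ↥ℚ⟮(g : L₀)⟯ L₀).comp W₀.subtype).toAlgebra
  have : IsScalarTower W₀ ↥ℚ⟮(g : L₀)⟯ L₀ := IsScalarTower.of_algebraMap_eq' rfl
  have hyint : IsIntegral W₀ y := by
    let M : Submodule W₀ L₀ := Submodule.span W₀ (Set.range fun i => (ω i : L₀))
    have hM : ∀ z ∈ F₀, z ∈ gaussRing ℓ → z ∈ M := fun z hzF hzW => by
      obtain ⟨t, ht, htW⟩ := exists_coords hg ω hω hωF hdim hzF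
      exact (Submodule.mem_span_range_iff_exists_fun _).mpr
        ⟨fun i => ⟨t i, htW hzW i⟩, by rw [← ht]; exact Finset.sum_congr rfl fun i _ => rfl⟩
    refine isIntegral_of_smul_mem_submodule M (fun hbot => ?_)
      (Submodule.fg_span (Set.finite_range _)) y (fun z hz => ?_)
    · have h1 := hM 1 (one_mem _) (one_mem _)
      rw [hbot, Submodule.mem_bot] at h1
      exact one_ne_zero h1
    · induction hz using Submodule.span_induction with
      | mem z hz =>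
        obtain ⟨i, rfl⟩ := hz
        exact hM _ (mul_mem hyF (hωF i)) (mul_mem hyW (ω i).2)
      | zero => rw [smul_zero]; exact zero_mem _
      | add a b _ _ ha hb => rw [smul_add]; exact add_mem ha hb
      | smul c a _ ha => rw [smul_comm]; exact M.smul_mem c ha
  -- the coefficients of the minimal polynomial lie in `W₀`
  have hcW : ∀ i, ((minpoly ↥ℚ⟮(g : L₀)⟯ y).coeff i : L₀) ∈ gaussRing ℓ := fun i => by
    rw [minpoly.isIntegrallyClosed_eq_field_fractions' (R := W₀) ↥ℚ⟮(g : L₀)⟯ hyint, coeff_map]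
    exact ((minpoly W₀ y).coeff i).2
  -- and in `ℚ[g]`
  have hgen : ∀ P : ℚ[X],
      ((aeval (AdjoinSimple.gen ℚ (g : L₀)) P : ℚ⟮(g : L₀)⟯) : L₀) = aeval (g : L₀) P := fun P => by
    rw [aeval_def, aeval_def]
    show algebraMap ↥ℚ⟮(g : L₀)⟯ L₀ _ = _
    rw [hom_eval₂]
    congr 1
    exact Subsingleton.elim _ _
  let : Algebra ℚ[X] ↥ℚ⟮(g : L₀)⟯ := (aeval (AdjoinSimple.gen ℚ (g : L₀))).toRingHom.toAlgebra
  let : Algebra ℚ[X] L₀ := (aeval (g : L₀)).toRingHom.toAlgebra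
  have : IsScalarTower ℚ[X] ↥ℚ⟮(g : L₀)⟯ L₀ := IsScalarTower.of_algebraMap_eq fun P => by
    show aeval (g : L₀) P = ((aeval (AdjoinSimple.gen ℚ (g : L₀)) P : ℚ⟮(g : L₀)⟯) : L₀)
    exact (hgen P).symm
  have : FaithfulSMul ℚ[X] ↥ℚ⟮(g : L₀)⟯ := by
    rw [faithfulSMul_iff_algebraMap_injective]
    intro P Q h
    apply transcendental_iff_injective.mp (transcendental_coe hg)
    rw [← hgen P, ← hgen Q]
    exact congrArg Subtype.val h
  have : IsFractionRing ℚ[X] ↥ℚ⟮(g : L₀)⟯ := IsFractionRing.of_field _ _ fun t => by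
    obtain ⟨P, Q, h⟩ := (mem_adjoin_simple_iff ℚ _).mp t.2
    refine ⟨P, Q, Subtype.ext ?_⟩
    rw [IntermediateField.coe_div]
    show _ = ((aeval _ P : ℚ⟮(g : L₀)⟯) : L₀) / ((aeval _ Q : ℚ⟮(g : L₀)⟯) : L₀)
    rw [hgen P, hgen Q]
    exact h
  have hyint' : IsIntegral ℚ[X] y := by
    have hxint : IsIntegral ℚ[X] x := by
      obtain ⟨p, hp, hpx⟩ := hint
      refine ⟨p.map (mapRingHom (GaloisRep.ratLocalizedAt ℓ).subtype), hp.map _, ?_⟩
      rw [eval₂_map]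
      convert hpx using 1
      congr 1
      exact RingHom.ext fun P => (evalL_eq_aeval g P).symm
    rw [hy, div_eq_mul_inv, show ((ℓ : L₀))⁻¹ = algebraMap ℚ[X] L₀ (C ((ℓ : ℚ)⁻¹)) by
      simp [RingHom.algebraMap_toAlgebra]]
    exact hxint.mul isIntegral_algebraMap
  have hlift : (minpoly ↥ℚ⟮(g : L₀)⟯ y).map (algebraMap _ L₀) ∈ Polynomial.lifts (evalL g) := by
    rw [lifts_iff_coeff_lifts]
    intro i
    have hi := hcW i
    rw [minpoly.isIntegrallyClosed_eq_field_fractions' (R := ℚ[X]) ↥ℚ⟮(g : L₀)⟯ hyint',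
      coeff_map] at hi
    rw [coeff_map, minpoly.isIntegrallyClosed_eq_field_fractions' (R := ℚ[X]) ↥ℚ⟮(g : L₀)⟯ hyint',
      coeff_map, ← IsScalarTower.algebraMap_apply]
    have hi' : aeval (g : L₀) ((minpoly ℚ[X] y).coeff i) ∈ gaussRing ℓ := by
      have e : algebraMap ℚ[X] L₀ ((minpoly ℚ[X] y).coeff i) ∈ gaussRing ℓ := by
        rw [IsScalarTower.algebraMap_apply ℚ[X] ↥ℚ⟮(g : L₀)⟯ L₀]
        exact hi
      exact e
    obtain ⟨P', hP'⟩ := coeff_mem_of_aeval_mem hg hi'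
    exact ⟨P', hP'.symm⟩
  have hmon : ((minpoly ↥ℚ⟮(g : L₀)⟯ y).map (algebraMap _ L₀)).Monic :=
    (minpoly.monic hyint.tower_top).map _
  obtain ⟨q, hq, -, hqm⟩ := lifts_and_natDegree_eq_and_monic hlift hmon
  refine ⟨q, hqm, ?_⟩
  rw [eval₂_eq_eval_map, hq, eval_map, ← aeval_def, minpoly.aeval]

end Chart

end Fermat.Agent.IgusaX0
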