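import Mathlib.NumberTheory.Padics.PadicVal.Basic
import Fermat.Prelude.Def_ModularCurve_X0ModL
import Fermat.Prelude.Def_GaloisRep_Flat

/-!
# The Gauss valuation

The Gauss valuation ring of the quotients of `ℤ_(ℓ)((q))` inside `ℚ((q))`, with its residue map
to `𝔽_ℓ((q))`.
-/

set_option autoImplicit false

noncomputable section

namespace Fermat.Agent.IgusaX0

open ModularCurve Polynomial

variable (ℓ : ℕ) [Fact ℓ.Prime]

set_option quotPrecheck false in
local notation "Rℓ" => ↥(GaloisRep.ratLocalizedAt ℓ)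
local notation "L₀" => LaurentSeries ℚ
set_option quotPrecheck false in
local notation "L₁" => LaurentSeries (ZMod ℓ)

theorem den_cast_ne_zero (r : Rℓ) : (((r : ℚ).den : ℕ) : ZMod ℓ) ≠ 0 := by
  rw [Ne, CharP.cast_eq_zero_iff (ZMod ℓ) ℓ]
  exact (Nat.Prime.coprime_iff_not_dvd Fact.out).mp (Nat.Coprime.symm r.2)

/-- reduction `ℤ_(ℓ) → 𝔽_ℓ` -/
def red : Rℓ →+* ZMod ℓ where
  toFun r := ((r : ℚ) : ZMod ℓ)
  map_one' := by simp
  map_zero' := by simp
  map_add' a b := Rat.cast_add_of_ne_zero (den_cast_ne_zero ℓ a) (den_cast_ne_zero ℓ b)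
  map_mul' a b := Rat.cast_mul_of_ne_zero (den_cast_ne_zero ℓ a) (den_cast_ne_zero ℓ b)

/-- inclusion `ℤ_(ℓ)((q)) → ℚ((q))` -/
def seriesIncl : LaurentSeries Rℓ →+* L₀ := coeffMap (GaloisRep.ratLocalizedAt ℓ).subtype

/-- reduction `ℤ_(ℓ)((q)) → 𝔽_ℓ((q))` -/
def seriesRed : LaurentSeries Rℓ →+* L₁ := coeffMap (red ℓ)

omit [Fact (Nat.Prime ℓ)] in
/-- The inclusion of integral series is injective. -/
theorem seriesIncl_injective : Function.Injective (seriesIncl ℓ) := fun a b h => by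
  ext k
  exact congrArg (fun x : L₀ => x.coeff k) h

variable {ℓ}

/-- any ring homs out of `ℤ_(ℓ)` into a domain where its denominators are nonzero agree -/
theorem hom_ext {S : Type*} [CommRing S] [IsDomain S] [CharP S ℓ] (f g : Rℓ →+* S) : f = g := by
  ext r
  have h : r * ((r : ℚ).den : Rℓ) = ((r : ℚ).num : Rℓ) := by
    apply Subtype.ext
    push_cast
    exact Rat.mul_den_eq_num _
  have hf := congrArg f h
  have hg := congrArg g h
  rw [map_mul, map_natCast, map_intCast] at hf hg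
  refine mul_right_cancel₀ ?_ (hf.trans hg.symm)
  intro h0
  rw [CharP.cast_eq_zero_iff S ℓ] at h0
  exact (Nat.Prime.coprime_iff_not_dvd Fact.out).mp (Nat.Coprime.symm r.2) h0

theorem mem_ratLocalizedAt_of_padicValRat_nonneg {x : ℚ} (h : 0 ≤ padicValRat ℓ x) :
    x ∈ GaloisRep.ratLocalizedAt ℓ := by
  show x.den.Coprime ℓ
  rw [Nat.coprime_comm, Nat.Prime.coprime_iff_not_dvd Fact.out]
  intro hd
  have hp : ℓ.Prime := Fact.out
  have hn : ¬ (ℓ : ℤ) ∣ x.num := by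
    intro hn
    have := Int.natCast_dvd.mp hn
    exact hp.one_lt.ne' (Nat.dvd_one.mp (x.reduced ▸ Nat.dvd_gcd this hd))
  have h1 : padicValInt ℓ x.num = 0 := padicValInt.eq_zero_of_not_dvd hn
  have h2 : 1 ≤ padicValNat ℓ x.den := one_le_padicValNat_of_dvd x.den_nz hd
  rw [padicValRat_def, h1] at h
  omega

theorem padicValRat_nonneg (r : Rℓ) : 0 ≤ padicValRat ℓ (r : ℚ) := by
  have : padicValNat ℓ (r : ℚ).den = 0 := padicValNat.eq_zero_of_not_dvd
    ((Nat.Prime.coprime_iff_not_dvd Fact.out).mp (Nat.Coprime.symm r.2))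
  rw [padicValRat_def, this]
  simp

theorem red_eq_zero_iff (r : Rℓ) : red ℓ r = 0 ↔ ∃ r' : Rℓ, r = (ℓ : Rℓ) * r' := by
  constructor
  · intro h
    have hd := den_cast_ne_zero ℓ r
    have h' : (((r : ℚ).num : ℤ) : ZMod ℓ) = 0 := by
      have h'' : (((r : ℚ) : ℚ) : ZMod ℓ) = 0 := h
      rwa [Rat.cast_def, div_eq_zero_iff, or_iff_left hd] at h''
    obtain ⟨m, hm⟩ := (ZMod.intCast_zmod_eq_zero_iff_dvd _ _).mp h'
    refine ⟨⟨(m : ℚ) / (r : ℚ).den, ?_⟩, Subtype.ext ?_⟩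
    · apply Nat.Coprime.coprime_dvd_left _ r.2
      rw [show ((r : ℚ).den : ℚ) = (((r : ℚ).den : ℤ) : ℚ) by simp, ← Rat.divInt_eq_div]
      exact_mod_cast Rat.den_dvd m ((r : ℚ).den : ℤ)
    · push_cast
      rw [mul_div_assoc', eq_div_iff (by exact_mod_cast (r : ℚ).den_nz), Rat.mul_den_eq_num, hm]
      push_cast
      rfl
  · rintro ⟨r', rfl⟩
    rw [map_mul, map_natCast, ZMod.natCast_self, zero_mul]

variable (ℓ)

/-- A nonzero family of rationals whose valuations are bounded below is a power of `ℓ` times a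
family in `ℤ_(ℓ)` with nonzero reduction. -/
theorem exists_normalise {ι : Type*} (c : ι → ℚ) (B : ℤ)
    (hB : ∀ i, c i ≠ 0 → B ≤ padicValRat ℓ (c i)) (hne : ∃ i, c i ≠ 0) :
    ∃ (m : ℤ) (r : ι → Rℓ), (∀ i, c i = (ℓ : ℚ) ^ m * r i) ∧ (∀ i, c i = 0 → r i = 0) ∧
      ∃ i, red ℓ (r i) ≠ 0 := by
  have hp : ℓ.Prime := Fact.out
  have hℓ : (ℓ : ℚ) ≠ 0 := by exact_mod_cast hp.ne_zero
  obtain ⟨i₀, hi₀⟩ := hne
  obtain ⟨m, ⟨i₁, hi₁, hm⟩, hmin⟩ := Int.exists_least_of_bdd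
    (P := fun z => ∃ i, c i ≠ 0 ∧ padicValRat ℓ (c i) = z)
    ⟨B, fun z ⟨i, hi, hz⟩ => hz ▸ hB i hi⟩ ⟨_, i₀, hi₀, rfl⟩
  have hval : ∀ i, c i ≠ 0 →
      padicValRat ℓ ((ℓ : ℚ) ^ (-m) * c i) = padicValRat ℓ (c i) - m := fun i hi => by
    rw [padicValRat.mul (zpow_ne_zero _ hℓ) hi, padicValRat.zpow, padicValRat.self hp.one_lt]
    ring
  have hmem : ∀ i, (ℓ : ℚ) ^ (-m) * c i ∈ GaloisRep.ratLocalizedAt ℓ := fun i => by
    by_cases hi : c i = 0
    · rw [hi, mul_zero]; exact zero_mem _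
    · exact mem_ratLocalizedAt_of_padicValRat_nonneg
        (by rw [hval i hi]; linarith [hmin _ ⟨i, hi, rfl⟩])
  refine ⟨m, fun i => ⟨_, hmem i⟩, fun i => ?_, fun i hi => Subtype.ext (by simp [hi]), i₁, ?_⟩
  · show c i = _ * ((ℓ : ℚ) ^ (-m) * c i)
    rw [← mul_assoc, ← zpow_add₀ hℓ, add_neg_cancel, zpow_zero, one_mul]
  · intro h
    obtain ⟨r', hr'⟩ := (red_eq_zero_iff _).mp h
    have h2 : (ℓ : ℚ) ^ (-m) * c i₁ = (ℓ : ℚ) * r' := congrArg Subtype.val hr'
    have h0 : (r' : ℚ) ≠ 0 := by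
      intro h0
      rw [h0, mul_zero] at h2
      exact mul_ne_zero (zpow_ne_zero _ hℓ) hi₁ h2
    have h3 := congrArg (padicValRat ℓ) h2
    rw [hval i₁ hi₁, hm, padicValRat.mul hℓ h0, padicValRat.self hp.one_lt] at h3
    linarith [padicValRat_nonneg r']

/-- The valuation ring of the Gauss valuation. -/
def gaussRing : Subring L₀ where
  carrier := {x | ∃ a b : LaurentSeries Rℓ,
    seriesRed ℓ b ≠ 0 ∧ x * seriesIncl ℓ b = seriesIncl ℓ a}
  one_mem' := ⟨1, 1, by rw [map_one]; exact one_ne_zero, by simp⟩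
  zero_mem' := ⟨0, 1, by rw [map_one]; exact one_ne_zero, by simp⟩
  mul_mem' := by
    rintro x y ⟨a, b, hb, hx⟩ ⟨c, d, hd, hy⟩
    refine ⟨a * c, b * d, by rw [map_mul]; exact mul_ne_zero hb hd, ?_⟩
    rw [map_mul, map_mul, ← hx, ← hy]; ring
  add_mem' := by
    rintro x y ⟨a, b, hb, hx⟩ ⟨c, d, hd, hy⟩
    refine ⟨a * d + c * b, b * d, by rw [map_mul]; exact mul_ne_zero hb hd, ?_⟩
    rw [map_add, map_mul, map_mul, map_mul, ← hx, ← hy]; ring
  neg_mem' := by
    rintro x ⟨a, b, hb, hx⟩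
    exact ⟨-a, b, hb, by rw [map_neg, ← hx]; ring⟩

/-- Membership of the Gauss valuation ring. -/
theorem mem_gaussRing_iff {x : L₀} : x ∈ gaussRing ℓ ↔ ∃ a b : LaurentSeries Rℓ,
    seriesRed ℓ b ≠ 0 ∧ x * seriesIncl ℓ b = seriesIncl ℓ a := Iff.rfl

/-- Integral series lie in the Gauss valuation ring. -/
theorem seriesIncl_mem (a : LaurentSeries Rℓ) : seriesIncl ℓ a ∈ gaussRing ℓ :=
  ⟨a, 1, by rw [map_one]; exact one_ne_zero, by simp⟩

theorem frac_congr {x : L₀} {a b a' b' : LaurentSeries Rℓ}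
    (hx : x * seriesIncl ℓ b = seriesIncl ℓ a) (hx' : x * seriesIncl ℓ b' = seriesIncl ℓ a') :
    seriesRed ℓ a * seriesRed ℓ b' = seriesRed ℓ a' * seriesRed ℓ b := by
  have h : a * b' = a' * b := seriesIncl_injective ℓ (by rw [map_mul, map_mul, ← hx, ← hx']; ring)
  rw [← map_mul, ← map_mul, h]

/-- value of the residue map -/
def resFun (x : gaussRing ℓ) : L₁ :=
  seriesRed ℓ x.2.choose / seriesRed ℓ x.2.choose_spec.choose

/-- The residue can be computed from any representing fraction. -/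
theorem resFun_eq {x : gaussRing ℓ} {a b : LaurentSeries Rℓ} (hb : seriesRed ℓ b ≠ 0)
    (hx : (x : L₀) * seriesIncl ℓ b = seriesIncl ℓ a) :
    resFun ℓ x = seriesRed ℓ a / seriesRed ℓ b := by
  have h := x.2.choose_spec.choose_spec
  rw [resFun, div_eq_div_iff h.1 hb]
  exact frac_congr ℓ h.2 hx

/-- The residue map of the Gauss valuation. -/
def res : gaussRing ℓ →+* L₁ where
  toFun := resFun ℓ
  map_one' := by
    rw [resFun_eq ℓ (a := 1) (b := 1) (by rw [map_one]; exact one_ne_zero) (by simp)]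
    simp
  map_zero' := by
    rw [resFun_eq ℓ (a := 0) (b := 1) (by rw [map_one]; exact one_ne_zero) (by simp)]
    simp
  map_mul' x y := by
    obtain ⟨a, b, hb, hx⟩ := x.2
    obtain ⟨c, d, hd, hy⟩ := y.2
    rw [resFun_eq ℓ hb hx, resFun_eq ℓ hd hy, resFun_eq ℓ (a := a * c) (b := b * d)
      (by rw [map_mul]; exact mul_ne_zero hb hd)
      (by rw [Subring.coe_mul, map_mul, map_mul, ← hx, ← hy]; ring)]
    rw [map_mul, map_mul, div_mul_div_comm]
  map_add' x y := by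
    obtain ⟨a, b, hb, hx⟩ := x.2
    obtain ⟨c, d, hd, hy⟩ := y.2
    rw [resFun_eq ℓ hb hx, resFun_eq ℓ hd hy, resFun_eq ℓ (a := a * d + c * b) (b := b * d)
      (by rw [map_mul]; exact mul_ne_zero hb hd)
      (by rw [Subring.coe_add, map_add, map_mul, map_mul, map_mul, ← hx, ← hy]; ring)]
    rw [map_add, map_mul, map_mul, map_mul, div_add_div _ _ hb hd]
    ring

/-- The residue of an integral series is its reduction. -/
theorem res_seriesIncl (a : LaurentSeries Rℓ) :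
    res ℓ ⟨seriesIncl ℓ a, seriesIncl_mem ℓ a⟩ = seriesRed ℓ a := by
  show resFun ℓ _ = _
  rw [resFun_eq ℓ (a := a) (b := 1) (by rw [map_one]; exact one_ne_zero) (by simp)]
  simp

/-- A non zero integral series is a power of `ℓ` times one with non zero reduction. -/
theorem exists_series_normalise {a : LaurentSeries Rℓ} (ha : a ≠ 0) :
    ∃ (m : ℤ) (a' : LaurentSeries Rℓ),
      seriesIncl ℓ a = (ℓ : L₀) ^ m * seriesIncl ℓ a' ∧ seriesRed ℓ a' ≠ 0 := by
  obtain ⟨k, hk⟩ : ∃ k, a.coeff k ≠ 0 := by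
    by_contra hall
    push Not at hall
    exact ha (HahnSeries.ext (funext hall))
  obtain ⟨m, r, hr, hr0, i, hi⟩ := exists_normalise ℓ (fun k : ℤ => ((a.coeff k : Rℓ) : ℚ)) 0
    (fun k _ => padicValRat_nonneg _) ⟨k, fun h => hk (Subtype.ext h)⟩
  let a' : LaurentSeries Rℓ :=
    { coeff := r
      isPWO_support' := a.isPWO_support.mono fun k hk h0 => hk (hr0 k (by simp [h0])) }
  refine ⟨m, a', ?_, fun h => hi ?_⟩
  · ext k
    have : (ℓ : L₀) ^ m = HahnSeries.single 0 ((ℓ : ℚ) ^ m) := by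
      rw [← algebraMap_laurentSeries_eq_single, map_zpow₀, map_natCast]
    rw [this, HahnSeries.coeff_single_zero_mul]
    exact hr k
  · exact congrArg (fun x : L₁ => x.coeff i) h

end Fermat.Agent.IgusaX0
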