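import Fermat.Agent.IgusaX0.Chart
import Fermat.Prelude.Def_ModularCurve_IgusaScheme

/-!
# Reduction of the charts of the Igusa model

Reduction mod `ℓ` of the charts of the Igusa model of `X₀(N)` via `q`-expansions: given
`DegreeData`, a chart tensored with a field of characteristic `ℓ` embeds into Laurent series and is
hence a domain (`isDomain_tensor`).
-/

set_option autoImplicit false

noncomputable section

namespace Fermat.Agent.IgusaX0

open ModularCurve ModularCurve.IgusaScheme Polynomial IntermediateField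
open scoped TensorProduct

variable (N : ℕ) [NeZero N] (ℓ : ℕ) [Fact ℓ.Prime]

local notation "L₀" => LaurentSeries ℚ

/-- `j(q^N)` has degree at least `n` over `𝔽_ℓ(j)` and the function field at
most `n` over `ℚ(j)`. -/
structure DegreeData where
  n : ℕ
  dim_le : ∀ v : Fin (n + 1) → L₀, (∀ i, v i ∈ modularFunctionFieldFull N) →
    ¬ LinearIndependent ↥ℚ⟮jq⟯ v
  indep : LinearIndependent ↥(ZMod ℓ)⟮jqModC (ZMod ℓ)⟯
    (fun i : Fin n => jqNModC (ZMod ℓ) N ^ (i : ℕ))

omit [NeZero N] in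
theorem transcendental_jqModC (K : Type*) [Field K] : Transcendental K (jqModC K) := by
  rw [transcendental_iff]
  intro P hP
  by_contra h0
  have h := congrArg (fun x : LaurentSeries K => x.coeff (-(P.natDegree : ℤ))) hP
  simp only [aeval_eq_sum_range, HahnSeries.coeff_sum, HahnSeries.coeff_zero] at h
  rw [Finset.sum_eq_single P.natDegree] at h
  · rw [Algebra.smul_def, algebraMap_laurentSeries_eq_single, HahnSeries.coeff_single_zero_mul,
      coeff_jqModC_pow_self, mul_one] at h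
    exact leadingCoeff_ne_zero.mpr h0 h
  · intro i hi hne
    rw [Algebra.smul_def, algebraMap_laurentSeries_eq_single, HahnSeries.coeff_single_zero_mul,
      coeff_jqModC_pow_of_lt K (by have := Finset.mem_range.mp hi; omega), mul_zero]
  · intro h'
    exact absurd (Finset.self_mem_range_succ _) h'

omit [Fact (Nat.Prime ℓ)] in
theorem seriesIncl_jqModC : seriesIncl ℓ (jqModC ↥(GaloisRep.ratLocalizedAt ℓ)) = jq := by
  rw [seriesIncl, coeffMap_jqModC, jqModC_rat]

theorem seriesRed_jqModC :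
    seriesRed ℓ (jqModC ↥(GaloisRep.ratLocalizedAt ℓ)) = jqModC (ZMod ℓ) :=
    coeffMap_jqModC _

/-- `j` in the valuation ring -/
def jW : gaussRing ℓ := ⟨jq, seriesIncl_jqModC ℓ ▸ seriesIncl_mem ℓ _⟩

theorem res_jW : res ℓ (jW ℓ) = jqModC (ZMod ℓ) := by
  rw [← seriesRed_jqModC, ← res_seriesIncl]
  congr 1
  exact Subtype.ext (seriesIncl_jqModC ℓ).symm

/-- `1 / j` lies in the Gauss valuation ring. -/
theorem inv_jq_mem : jq⁻¹ ∈ gaussRing ℓ := by
  refine ⟨1, jqModC ↥(GaloisRep.ratLocalizedAt ℓ), ?_, ?_⟩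
  · rw [seriesRed_jqModC]; exact jqModC_ne_zero_of_nontrivial _
  · rw [map_one, seriesIncl_jqModC, inv_mul_cancel₀ jq_ne_zero]

/-- `1/j` in the valuation ring -/
def jInvW : gaussRing ℓ := ⟨jq⁻¹, inv_jq_mem ℓ⟩

theorem res_jInvW : res ℓ (jInvW ℓ) = (jqModC (ZMod ℓ))⁻¹ := by
  rw [← res_jW]
  refine eq_inv_of_mul_eq_one_left ?_
  rw [← map_mul, ← map_one (res ℓ)]
  congr 1
  exact Subtype.ext (inv_mul_cancel₀ jq_ne_zero)

omit [NeZero N] [Fact ℓ.Prime] in
theorem modularFunctionFieldFull_le_frac :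
    ∀ x ∈ modularFunctionFieldFull N, x ∈ fracSubfield ℓ := by
  let S : IntermediateField ℚ L₀ :=
    { fracSubfield ℓ with algebraMap_mem' := algebraMap_mem_frac ℓ }
  have : modularFunctionFieldFull N ≤ S := by
    rw [modularFunctionFieldFull, adjoin_le_iff]
    rintro x ⟨d, hne, -, rfl⟩
    show _ ∈ fracSubfield ℓ
    rw [← seriesIncl_jqModC ℓ, seriesIncl, ← ModularCurve.coeffMap_qExpand]
    exact seriesIncl_mem_frac ℓ _
  exact fun x hx => this hx

omit [NeZero N] [Fact ℓ.Prime] in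
theorem adjoin_inv_eq {K L : Type*} [Field K] [Field L] [Algebra K L] (x : L) :
    K⟮x⁻¹⟯ = K⟮x⟯ :=
  le_antisymm (adjoin_simple_le_iff.mpr (inv_mem (mem_adjoin_simple_self K x)))
    (adjoin_simple_le_iff.mpr (by simpa using inv_mem (mem_adjoin_simple_self K x⁻¹)))

/-- A coordinate: `j` or `1/j`. -/
def IsCoord (g : gaussRing ℓ) : Prop := g = jW ℓ ∨ g = jInvW ℓ

theorem IsCoord.adjoin_eq {g : gaussRing ℓ} (h : IsCoord ℓ g) :
    ℚ⟮(g : L₀)⟯ = ℚ⟮jq⟯ ∧ (ZMod ℓ)⟮res ℓ g⟯ = (ZMod ℓ)⟮jqModC (ZMod ℓ)⟯ := by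
  rcases h with rfl | rfl
  · rw [res_jW]; exact ⟨rfl, rfl⟩
  · rw [res_jInvW]; exact ⟨adjoin_inv_eq _, adjoin_inv_eq _⟩

theorem IsCoord.transcendental {g : gaussRing ℓ} (h : IsCoord ℓ g) :
    Transcendental (ZMod ℓ) (res ℓ g) := by
  rcases h with rfl | rfl
  · rw [res_jW]; exact transcendental_jqModC _
  · rw [res_jInvW]
    intro ha
    exact transcendental_jqModC (ZMod ℓ) (by simpa using ha.inv)

theorem IsCoord.mem {g : gaussRing ℓ} (h : IsCoord ℓ g) :
    (g : L₀) ∈ modularFunctionFieldFull N := by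
  rcases h with rfl | rfl
  · exact (jFull N).2
  · exact inv_mem (jFull N).2

/-- the inclusion of the function field into `ℚ((q))` -/
abbrev inclF : ↥(modularFunctionFieldFull N) →+* L₀ := algebraMap _ _

variable {N ℓ} {g : gaussRing ℓ} {gF : ↥(modularFunctionFieldFull N)}

/-- evaluation at `g` landing in `↥(modularFunctionFieldFull N)` -/
def evalF (gF : ↥(modularFunctionFieldFull N)) :
    (↥(GaloisRep.ratLocalizedAt ℓ))[X] →ₐ[↥(GaloisRep.ratLocalizedAt ℓ)]
    ↥(modularFunctionFieldFull N) := aeval gF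

omit [NeZero N] in
theorem coe_evalF (hgF : (gF : L₀) = g) (P : (↥(GaloisRep.ratLocalizedAt ℓ))[X]) :
    ((evalF gF P : ↥(modularFunctionFieldFull N)) : L₀) = evalL g P := by
  have : ((inclF N)).comp (evalF (ℓ := ℓ) gF).toRingHom = evalL g :=
    Polynomial.ringHom_ext (fun r => by
      simp [evalF, evalL, RingHom.algebraMap_toAlgebra, constHom]
      rfl) (by simp [evalF, evalL, hgF])
  exact RingHom.congr_fun this P

theorem mem_chartAlg_singleton_iff (hgF : (gF : L₀) = g) (x : ↥(modularFunctionFieldFull N)) :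
    x ∈ chartAlg N ℓ {gF} ↔ (evalL g).IsIntegralElem (x : L₀) := by
  rw [mem_chartAlg_iff]
  constructor
  · rintro ⟨p, hp, hpx⟩
    let ψ : Algebra.adjoin
        ↥(GaloisRep.ratLocalizedAt ℓ) ({gF} : Set ↥(modularFunctionFieldFull N)) →+* L₀ :=
      (inclF N).comp (algebraMap _ ↥(modularFunctionFieldFull N))
    have hl : p.map ψ ∈ lifts (evalL g) := by
      rw [lifts_iff_coeff_lifts]
      intro i
      obtain ⟨P, hP⟩ : ((p.coeff i : ↥(modularFunctionFieldFull N))) ∈
          (aeval (R := ↥(GaloisRep.ratLocalizedAt ℓ)) gF).range := by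
        rw [← Algebra.adjoin_singleton_eq_range_aeval]; exact (p.coeff i).2
      exact ⟨P, by rw [coeff_map, ← coe_evalF hgF P]; exact congrArg Subtype.val hP⟩
    obtain ⟨q, hq, -, hqm⟩ := lifts_and_natDegree_eq_and_monic hl (hp.map _)
    refine ⟨q, hqm, ?_⟩
    rw [eval₂_eq_eval_map, hq, eval_map, show (x : L₀) = (inclF N) x
      from rfl, ← hom_eval₂, hpx, map_zero]
  · rintro ⟨p, hp, hpx⟩
    let φ : (↥(GaloisRep.ratLocalizedAt ℓ))[X] →+*
        Algebra.adjoin ↥(GaloisRep.ratLocalizedAt ℓ) ({gF} : Set ↥(modularFunctionFieldFull N)) :=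
      ((evalF gF).codRestrict _ fun P => aeval_mem_adjoin_singleton _ _).toRingHom
    refine ⟨p.map φ, hp.map _, ?_⟩
    apply Subtype.ext
    rw [eval₂_map]
    show (inclF N) _ = (0 : L₀)
    rw [hom_eval₂]
    rw [show (inclF N).comp
      ((algebraMap _ ↥(modularFunctionFieldFull N)).comp φ) = evalL g from
          RingHom.ext fun P => coe_evalF hgF P]
    exact hpx

variable (D : DegreeData N ℓ) (hc : IsCoord ℓ g)

include D hc

omit D hc in
/-- The chart algebra lies in the Gauss valuation ring. -/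
theorem mem_gaussRing_of_mem_chartAlg (hgF : (gF : L₀) = g) {x : ↥(modularFunctionFieldFull N)}
    (hx : x ∈ chartAlg N ℓ {gF}) :
    (x : L₀) ∈ gaussRing ℓ :=
  mem_gaussRing_of_integral
    (modularFunctionFieldFull_le_frac N ℓ) x.2 ((mem_chartAlg_singleton_iff hgF x).mp hx)

/-- An element of a chart with zero residue is divisible by `ℓ`. -/
theorem exists_eq_ell_mul (hgF : (gF : L₀) = g) (x : chartAlg N ℓ {gF})
    (h0 : res ℓ ⟨((x : ↥(modularFunctionFieldFull N)) : L₀),
        mem_gaussRing_of_mem_chartAlg hgF x.2⟩ = 0) :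
    ∃ y : chartAlg N ℓ {gF}, x = (ℓ : chartAlg N ℓ {gF}) * y := by
  obtain ⟨hE, hK⟩ := IsCoord.adjoin_eq ℓ hc
  have hjN : jqN N = seriesIncl ℓ (jqNModC ↥(GaloisRep.ratLocalizedAt ℓ) N) := by
    rw [seriesIncl, coeffMap_jqNModC, jqNModC_rat]
  let ω₁ : gaussRing ℓ := ⟨jqN N, hjN ▸ seriesIncl_mem ℓ _⟩
  have hω₁ : res ℓ ω₁ = jqNModC (ZMod ℓ) N := by
    rw [← coeffMap_jqNModC (red ℓ) N, ← seriesRed, ← res_seriesIncl]
    congr 1
    exact Subtype.ext hjN
  have hind : LinearIndependent ↥(ZMod ℓ)⟮res ℓ g⟯ (fun i : Fin D.n => res ℓ (ω₁ ^ (i : ℕ))) := by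
    simp only [map_pow, hω₁]
    rw [hK]
    exact D.indep
  have hdim : ∀ v : Fin (D.n + 1) → L₀, (∀ i, v i ∈ modularFunctionFieldFull N) →
      ¬ LinearIndependent ↥ℚ⟮(g : L₀)⟯ v := by
    rw [hE]; exact D.dim_le
  have hint := integral_div_of_res_eq_zero (IsCoord.transcendental ℓ hc) _ hind
    (IsCoord.mem N ℓ hc)
    (fun i => by
      rw [Subring.coe_pow]
      exact pow_mem (jqd_mem_full N dvd_rfl) _)
    (modularFunctionFieldFull_le_frac N ℓ) hdim (x : ↥(modularFunctionFieldFull N)).2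
    ((mem_chartAlg_singleton_iff hgF _).mp x.2) _ h0
  refine ⟨⟨(x : ↥(modularFunctionFieldFull N)) / (ℓ : ↥(modularFunctionFieldFull N)),
      (mem_chartAlg_singleton_iff hgF _).mpr ?_⟩, Subtype.ext ?_⟩
  · simpa using hint
  · push_cast
    rw [mul_div_cancel₀]
    exact_mod_cast (Fact.out : ℓ.Prime).ne_zero

section Tensor

variable (K : Type) [Field K] [CharP K ℓ] [Algebra ↥(GaloisRep.ratLocalizedAt ℓ) K]

omit hc D in
/-- change of coefficients `𝔽_ℓ → K` -/
def baseK : (LaurentSeries (ZMod ℓ)) →+* LaurentSeries K := coeffMap (ZMod.castHom (dvd_refl ℓ) K)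

omit hc D in
/-- a ring map from a chart to `K((q))` that is compatible with the structure maps -/
def chartMap (S : Set ↥(modularFunctionFieldFull N))
    (hS : ∀ x ∈ chartAlg N ℓ S, (x : L₀) ∈ gaussRing ℓ) :
    chartAlg N ℓ S →+* LaurentSeries K :=
  (baseK K).comp <| (res ℓ).comp <|
    ((inclF N).comp (chartAlg N ℓ S).val.toRingHom).codRestrict _
      fun x => hS _ x.2

omit hc D [NeZero N] in
/-- The chart map on constants. -/
theorem chartMap_comp_algebraMap (S : Set ↥(modularFunctionFieldFull N))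
    (hS : ∀ x ∈ chartAlg N ℓ S, (x : L₀) ∈ gaussRing ℓ) :
    (chartMap K S hS).comp (algebraMap ↥(GaloisRep.ratLocalizedAt ℓ) (chartAlg N ℓ S)) =
      HahnSeries.C.comp (algebraMap ↥(GaloisRep.ratLocalizedAt ℓ) K) := by
  have : CharP (LaurentSeries K) ℓ :=
    charP_of_injective_ringHom (HahnSeries.C (Γ := ℤ) (R := K)).injective ℓ
  exact hom_ext _ _

omit hc D in
theorem algebraMap_laurentSeries_eq (r : ↥(GaloisRep.ratLocalizedAt ℓ)) :
    algebraMap ↥(GaloisRep.ratLocalizedAt ℓ) (LaurentSeries K) r =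
      HahnSeries.C (algebraMap ↥(GaloisRep.ratLocalizedAt ℓ) K r) := by
  have : CharP (LaurentSeries K) ℓ :=
    charP_of_injective_ringHom (HahnSeries.C (Γ := ℤ) (R := K)).injective ℓ
  exact RingHom.congr_fun (hom_ext (algebraMap ↥(GaloisRep.ratLocalizedAt ℓ) (LaurentSeries K))
    ((HahnSeries.C (Γ := ℤ) (R := K)).comp (algebraMap ↥(GaloisRep.ratLocalizedAt ℓ) K))) r

omit hc D in
/-- a chart map as an algebra map -/
def chartAlgHom (S : Set ↥(modularFunctionFieldFull N))
    (hS : ∀ x ∈ chartAlg N ℓ S, (x : L₀) ∈ gaussRing ℓ) :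
    chartAlg N ℓ S →ₐ[↥(GaloisRep.ratLocalizedAt ℓ)] LaurentSeries K :=
  { chartMap K S hS with
    commutes' := fun r => (RingHom.congr_fun (chartMap_comp_algebraMap K S hS) r).trans
      (algebraMap_laurentSeries_eq K r).symm }

omit hc D in
/-- constants as an algebra map -/
def constAlgHom : K →ₐ[↥(GaloisRep.ratLocalizedAt ℓ)] LaurentSeries K :=
  { (HahnSeries.C : K →+* LaurentSeries K) with
    commutes' := fun r => (algebraMap_laurentSeries_eq K r).symm }

/-- the `q`-expansion of `A ⊗ K` -/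
def tensorMap (hgF : (gF : L₀) = g) :
    chartAlg N ℓ {gF} ⊗[↥(GaloisRep.ratLocalizedAt ℓ)] K →+* LaurentSeries K :=
  (Algebra.TensorProduct.productMap
    (chartAlgHom K {gF} fun _ hx => mem_gaussRing_of_mem_chartAlg hgF hx)
    (constAlgHom K)).toRingHom

omit D hc in
theorem tensorMap_tmul (hgF : (gF : L₀) = g) (a : chartAlg N ℓ {gF}) (k : K) :
    tensorMap K hgF (a ⊗ₜ[↥(GaloisRep.ratLocalizedAt ℓ)] k) =
      chartMap K {gF} (fun _ hx => mem_gaussRing_of_mem_chartAlg hgF hx) a * HahnSeries.C k :=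
  Algebra.TensorProduct.productMap_apply_tmul _ _ _ _

/-- The `q`-expansion of a chart tensored with `K` is injective. -/
theorem tensorMap_injective (hgF : (gF : L₀) = g) :
    Function.Injective (tensorMap K hgF) := by
  let : Algebra (ZMod ℓ) K := ZMod.algebra K ℓ
  let b := Module.Basis.ofVectorSpace (ZMod ℓ) K
  let Θ : (Module.Basis.ofVectorSpaceIndex (ZMod ℓ) K →₀ ↥(chartAlg N ℓ {gF})) →
      ↥(chartAlg N ℓ {gF}) ⊗[↥(GaloisRep.ratLocalizedAt ℓ)] K :=
    fun f => f.sum fun i a => a ⊗ₜ[↥(GaloisRep.ratLocalizedAt ℓ)] b i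
  have hsurj : Function.Surjective Θ := by
    intro z
    induction z using TensorProduct.induction_on with
    | zero => exact ⟨0, Finsupp.sum_zero_index⟩
    | add x y hx hy =>
      obtain ⟨u, rfl⟩ := hx
      obtain ⟨v, rfl⟩ := hy
      exact ⟨u + v, Finsupp.sum_add_index' (fun i => TensorProduct.zero_tmul _ _)
        (fun i a a' => TensorProduct.add_tmul a a' (b i))⟩
    | tmul a k =>
      refine ⟨(b.repr k).mapRange (fun c => c.val • a) (by simp), ?_⟩
      show Finsupp.sum _ _ = _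
      erw [Finsupp.sum_mapRange_index (fun i => TensorProduct.zero_tmul _ (b i))]
      conv_rhs => rw [← b.linearCombination_repr k, Finsupp.linearCombination_apply]
      rw [Finsupp.sum, Finsupp.sum, TensorProduct.tmul_sum]
      refine Finset.sum_congr rfl fun i _ => ?_
      rw [TensorProduct.smul_tmul]
      congr 1
      conv_rhs => rw [← ZMod.natCast_zmod_val (b.repr k i), Nat.cast_smul_eq_nsmul]
  rw [injective_iff_map_eq_zero]
  intro z hz
  obtain ⟨f, rfl⟩ := hsurj z
  show Finsupp.sum _ _ = _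
  change tensorMap K hgF (Finsupp.sum _ _) = 0 at hz
  rw [Finsupp.sum] at hz ⊢
  simp only [map_sum, tensorMap_tmul] at hz
  refine Finset.sum_eq_zero fun i hi => ?_
  have hzero : res ℓ ⟨(((f i : ↥(chartAlg N ℓ {gF})) : ↥(modularFunctionFieldFull N)) : L₀),
      mem_gaussRing_of_mem_chartAlg hgF (f i).2⟩ = 0 := by
    ext k
    have h := congrArg (fun x : LaurentSeries K => x.coeff k) hz
    simp only [HahnSeries.coeff_sum, HahnSeries.coeff_zero, HahnSeries.C_apply] at h
    rw [HahnSeries.coeff_zero]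
    refine linearIndependent_iff'.mp b.linearIndependent f.support
      (fun i => (res ℓ ⟨(((f i : ↥(chartAlg N ℓ {gF})) : ↥(modularFunctionFieldFull N)) : L₀),
        mem_gaussRing_of_mem_chartAlg hgF (f i).2⟩).coeff k)
      ?_ i hi
    rw [← h]
    refine Finset.sum_congr rfl fun i _ => ?_
    rw [Algebra.smul_def, mul_comm _ (HahnSeries.single (0 : ℤ) (b i)),
      HahnSeries.coeff_single_zero_mul, mul_comm]
    rfl
  obtain ⟨y, hy⟩ := exists_eq_ell_mul D hc hgF (f i) hzero
  rw [hy, ← map_natCast (algebraMap ↥(GaloisRep.ratLocalizedAt ℓ) ↥(chartAlg N ℓ {gF})),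
      ← Algebra.smul_def,
    TensorProduct.smul_tmul,
    Algebra.smul_def, map_natCast, CharP.cast_eq_zero, zero_mul, TensorProduct.tmul_zero]

/-- A chart tensored with a field of characteristic `ℓ` is a domain. -/
theorem isDomain_tensor (hgF : (gF : L₀) = g) :
    IsDomain (chartAlg N ℓ {gF} ⊗[↥(GaloisRep.ratLocalizedAt ℓ)] K) :=
  (tensorMap_injective D hc K hgF).isDomain (tensorMap K hgF)

end Tensor

end Fermat.Agent.IgusaX0
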